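import Mathlib

/-!
# Row S31, piece D1 (helper972): a reduced finite torsion-free `ℤ`-algebra is an order

`R` commutative ring, `Module.Finite ℤ R`, `IsReduced R`, `IsAddTorsionFree R`.  Then there are
finitely many number fields `K i` and ring homomorphisms `φ i : R →+* 𝓞 (K i)` such that

* `r = 0` as soon as `φ i r = 0` for all `i` (`R ↪ ∏ 𝓞 (K i)`), and
* there is a natural number `c ≥ 1` (a "conductor") with `c • ∏ 𝓞 (K i) ⊆ image of R`.

(`i` runs over the minimal primes `𝔮` of `R`, `K 𝔮 = Frac (R ⧸ 𝔮)`.)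

Main declarations: `OrderData R` (the structure packaging the output), `nonempty_orderData`,
`exists_orderData` (unbundled form), `OrderData.exists_nat_mul_eq` (the consequence used by D4).
Mathlib only.
-/

set_option autoImplicit false
set_option linter.unusedSectionVars false
set_option linter.style.haveILetI false

noncomputable section

namespace Fermat.Agent.S31.H972

open NumberField
open scoped nonZeroDivisors

/-! ## A lemma on finitely generated abelian groups -/

/-- If every element of a finitely generated abelian group `A` has a positive multiple in the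
subgroup `N`, then some fixed positive integer multiplies all of `A` into `N`. -/
theorem exists_uniform_nsmul_mem {A : Type*} [AddCommGroup A] [Module.Finite ℤ A]
    (N : AddSubgroup A) (h : ∀ u : A, ∃ n : ℕ, 0 < n ∧ n • u ∈ N) :
    ∃ c : ℕ, 0 < c ∧ ∀ u : A, c • u ∈ N := by
  classical
  obtain ⟨s, hs⟩ := (Module.Finite.fg_top : (⊤ : Submodule ℤ A).FG)
  choose n hn0 hn using h
  refine ⟨∏ g ∈ s, n g, Finset.prod_pos fun g _ => hn0 g, fun u => ?_⟩
  have hu : u ∈ Submodule.span ℤ (s : Set A) := hs ▸ Submodule.mem_top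
  induction hu using Submodule.span_induction with
  | mem g hg =>
    obtain ⟨d, hd⟩ := Finset.dvd_prod_of_mem n hg
    rw [hd, mul_nsmul]
    exact N.nsmul_mem (hn g) d
  | zero => rw [nsmul_zero]; exact N.zero_mem
  | add x y _ _ hx hy => rw [nsmul_add]; exact N.add_mem hx hy
  | smul a x _ hx =>
    rw [← natCast_zsmul, smul_comm, natCast_zsmul]
    exact N.zsmul_mem hx a

/-! ## The output structure -/

/-- The data produced by D1: an embedding of `R` into a finite product of rings of integers of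
number fields, with a conductor `c`. -/
structure OrderData (R : Type) [CommRing R] : Type 1 where
  /-- the index type (the minimal primes of `R`) -/
  ι : Type
  [fintype : Fintype ι]
  /-- the number fields -/
  K : ι → Type
  [field : ∀ i, Field (K i)]
  [numberField : ∀ i, NumberField (K i)]
  /-- the projections -/
  φ : ∀ i, R →+* 𝓞 (K i)
  /-- the conductor -/
  c : ℕ
  c_pos : 0 < c
  inj : ∀ r : R, (∀ i, φ i r = 0) → r = 0
  cond : ∀ u : ∀ i, 𝓞 (K i), ∃ r : R, ∀ i, φ i r = (c : 𝓞 (K i)) * u i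

attribute [instance] OrderData.fintype OrderData.field OrderData.numberField

/-! ## The construction -/

section Ring

variable (R : Type) [CommRing R]

/-- The index type: the minimal primes of `R`. -/
abbrev MinP : Type := ↥(minimalPrimes R)

instance minP_isPrime (q : MinP R) : q.1.IsPrime := q.2.1.1

/-- The field `Frac (R ⧸ 𝔮)` (a plain `def`, so that the only `ℤ`-algebra structure in sight is
the canonical one). -/
def KK (q : MinP R) : Type := FractionRing (R ⧸ q.1)

instance KK_field (q : MinP R) : Field (KK R q) :=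
  inferInstanceAs (Field (FractionRing (R ⧸ q.1)))

instance KK_algebra (q : MinP R) : Algebra (R ⧸ q.1) (KK R q) :=
  inferInstanceAs (Algebra (R ⧸ q.1) (FractionRing (R ⧸ q.1)))

instance KK_isFractionRing (q : MinP R) : IsFractionRing (R ⧸ q.1) (KK R q) :=
  inferInstanceAs (IsFractionRing (R ⧸ q.1) (FractionRing (R ⧸ q.1)))

/-- `R → Frac (R ⧸ 𝔮)`. -/
def psi (q : MinP R) : R →+* KK R q :=
  (algebraMap (R ⧸ q.1) (KK R q)).comp (Ideal.Quotient.mk q.1)

variable {R}

theorem psi_eq_zero_iff (q : MinP R) (r : R) : psi R q r = 0 ↔ r ∈ q.1 := by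
  rw [psi, RingHom.comp_apply,
    map_eq_zero_iff _ (IsFractionRing.injective (R ⧸ q.1) (KK R q)),
    Ideal.Quotient.eq_zero_iff_mem]

variable [Module.Finite ℤ R]

instance minP_finite_quot (q : MinP R) : Module.Finite ℤ (R ⧸ q.1) :=
  Module.Finite.of_surjective (Ideal.Quotient.mk q.1).toIntAlgHom.toLinearMap
    Ideal.Quotient.mk_surjective

theorem isNoetherianRing_of_finite_int : IsNoetherianRing R :=
  isNoetherian_of_tower ℤ (isNoetherian_of_isNoetherianRing_of_finite ℤ R)

instance minP_fintype : Fintype (MinP R) :=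
  haveI := isNoetherianRing_of_finite_int (R := R)
  (minimalPrimes.finite_of_isNoetherianRing R).fintype

theorem psi_isIntegral (q : MinP R) (r : R) : IsIntegral ℤ (psi R q r) :=
  (Algebra.IsIntegral.isIntegral (R := ℤ) r).map (psi R q).toIntAlgHom

variable [IsAddTorsionFree R]

theorem natCast_notMem_minP (q : MinP R) {n : ℕ} (hn : n ≠ 0) : (n : R) ∉ q.1 := by
  intro hmem
  have hdisj := Ideal.disjoint_nonZeroDivisors_of_mem_minimalPrimes q.2
  have hnzd : (n : R) ∈ R⁰ := by
    rw [mem_nonZeroDivisors_iff_right]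
    intro x hx
    rw [mul_comm, ← nsmul_eq_mul] at hx
    exact nsmul_right_injective hn (hx.trans (nsmul_zero n).symm)
  exact Set.disjoint_left.mp hdisj hmem hnzd

instance minP_charZero_quot (q : MinP R) : CharZero (R ⧸ q.1) :=
  charZero_of_inj_zero fun n hn => by
    by_contra h0
    have : ((n : R) : R ⧸ q.1) = 0 := by simpa using hn
    exact natCast_notMem_minP q h0 (Ideal.Quotient.eq_zero_iff_mem.mp this)

instance minP_charZero (q : MinP R) : CharZero (KK R q) :=
  charZero_of_injective_algebraMap (IsFractionRing.injective (R ⧸ q.1) (KK R q))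

instance minP_numberField (q : MinP R) : NumberField (KK R q) where
  to_charZero := inferInstance
  to_finiteDimensional := by
    haveI : Algebra.IsAlgebraic ℤ (R ⧸ q.1) := Algebra.IsIntegral.isAlgebraic
    exact Module.Finite.of_isLocalization ℤ (R ⧸ q.1) (Rₚ := ℚ) (Sₚ := KK R q) ℤ⁰

/-- The projection `R → 𝓞 (Frac (R ⧸ 𝔮))`, as a function. -/
def phiFun (q : MinP R) (r : R) : 𝓞 (KK R q) := ⟨psi R q r, psi_isIntegral q r⟩

theorem coe_phiFun (q : MinP R) (r : R) :
    algebraMap (𝓞 (KK R q)) (KK R q) (phiFun q r) = psi R q r := rfl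

/-- The projection `R → 𝓞 (Frac (R ⧸ 𝔮))`. -/
def phi (q : MinP R) : R →+* 𝓞 (KK R q) where
  toFun := phiFun q
  map_one' := by
    apply NumberField.RingOfIntegers.ext
    show algebraMap (𝓞 (KK R q)) (KK R q) (phiFun q 1) = algebraMap (𝓞 (KK R q)) (KK R q) 1
    rw [coe_phiFun, map_one, map_one]
  map_mul' x y := by
    apply NumberField.RingOfIntegers.ext
    show algebraMap (𝓞 (KK R q)) (KK R q) (phiFun q (x * y)) =
      algebraMap (𝓞 (KK R q)) (KK R q) (phiFun q x * phiFun q y)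
    rw [map_mul, coe_phiFun, coe_phiFun, coe_phiFun, map_mul]
  map_zero' := by
    apply NumberField.RingOfIntegers.ext
    show algebraMap (𝓞 (KK R q)) (KK R q) (phiFun q 0) = algebraMap (𝓞 (KK R q)) (KK R q) 0
    rw [coe_phiFun, map_zero, map_zero]
  map_add' x y := by
    apply NumberField.RingOfIntegers.ext
    show algebraMap (𝓞 (KK R q)) (KK R q) (phiFun q (x + y)) =
      algebraMap (𝓞 (KK R q)) (KK R q) (phiFun q x + phiFun q y)
    rw [map_add, coe_phiFun, coe_phiFun, coe_phiFun, map_add]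

@[simp] theorem coe_phi (q : MinP R) (r : R) : ((phi q r : 𝓞 (KK R q)) : KK R q) = psi R q r :=
  rfl

theorem phi_eq_zero_iff (q : MinP R) (r : R) : phi q r = 0 ↔ r ∈ q.1 := by
  rw [← psi_eq_zero_iff, ← coe_phi, NumberField.RingOfIntegers.coe_eq_zero_iff]

/-! ### Injectivity of `R → ∏ 𝓞 (K 𝔮)` -/

theorem eq_zero_of_forall_phi_eq_zero [IsReduced R] (r : R) (h : ∀ q : MinP R, phi q r = 0) :
    r = 0 := by
  have h1 : r ∈ sInf (minimalPrimes R) := by
    rw [Ideal.mem_sInf]
    intro I hI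
    exact (phi_eq_zero_iff ⟨I, hI⟩ r).mp (h ⟨I, hI⟩)
  have h2 : sInf (minimalPrimes R) = (⊥ : Ideal R).radical := Ideal.sInf_minimalPrimes
  rw [h2] at h1
  have h3 : (⊥ : Ideal R).radical = ⊥ := nilradical_eq_zero R
  rw [h3] at h1
  exact (Ideal.mem_bot).mp h1

/-! ### Separating elements -/

theorem exists_separating (q : MinP R) :
    ∃ s : R, s ∉ q.1 ∧ ∀ q' : MinP R, q' ≠ q → s ∈ q'.1 := by
  classical
  by_contra hcon
  push Not at hcon
  have hle : (Finset.univ.erase q).inf (fun q' : MinP R => q'.1) ≤ q.1 := by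
    intro s hs
    by_contra hsq
    obtain ⟨q', hq', hsq'⟩ := hcon s hsq
    rw [Submodule.mem_finsetInf] at hs
    exact hsq' (hs q' (Finset.mem_erase.mpr ⟨hq', Finset.mem_univ _⟩))
  obtain ⟨q', hq', hq'le⟩ := (Ideal.IsPrime.inf_le' (minP_isPrime R q)).mp hle
  have hne : q' ≠ q := (Finset.mem_erase.mp hq').1
  have hge : q.1 ≤ q'.1 := q.2.2 ⟨minP_isPrime R q', bot_le⟩ hq'le
  exact hne (Subtype.ext (le_antisymm hq'le hge))

/-! ### Nonzero elements of `R ⧸ 𝔮` divide positive integers -/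

theorem exists_mul_eq_natCast (q : MinP R) {b : R ⧸ q.1} (hb : b ≠ 0) :
    ∃ (b' : R ⧸ q.1) (n : ℕ), 0 < n ∧ b * b' = (n : R ⧸ q.1) := by
  have halg : IsAlgebraic ℤ b :=
    (Algebra.IsIntegral.isIntegral (R := ℤ) b).isAlgebraic
  obtain ⟨d, hd0, c, hc⟩ := halg.exists_nonzero_dvd (mem_nonZeroDivisors_of_ne_zero hb)
  rcases Int.natAbs_eq d with h | h
  · refine ⟨c, d.natAbs, Int.natAbs_pos.mpr hd0, ?_⟩
    rw [← hc, h]
    simp
  · refine ⟨-c, d.natAbs, Int.natAbs_pos.mpr hd0, ?_⟩
    rw [mul_neg, ← hc, h]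
    simp

/-! ### The conductor -/

/-- For `x ∈ 𝓞 (K 𝔮)` some positive multiple of `(0, …, x, …, 0)` is in the image of `R`. -/
theorem exists_phi_eq_nsmul_single (q : MinP R) (x : 𝓞 (KK R q)) :
    ∃ (r : R) (n : ℕ), 0 < n ∧ phi q r = n • x ∧ ∀ q' : MinP R, q' ≠ q → phi q' r = 0 := by
  obtain ⟨a, b, hb, hab⟩ := IsFractionRing.div_surjective (R ⧸ q.1)
    (algebraMap (𝓞 (KK R q)) (KK R q) x)
  have hb0 : b ≠ 0 := nonZeroDivisors.ne_zero hb
  obtain ⟨b', n₁, hn₁, hbb'⟩ := exists_mul_eq_natCast q hb0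
  obtain ⟨s, hsq, hs⟩ := exists_separating q
  have hs0 : (Ideal.Quotient.mk q.1 s) ≠ 0 := fun h => hsq (Ideal.Quotient.eq_zero_iff_mem.mp h)
  obtain ⟨s', n₂, hn₂, hss'⟩ := exists_mul_eq_natCast q hs0
  obtain ⟨a₀, rfl⟩ := Ideal.Quotient.mk_surjective a
  obtain ⟨b₀, rfl⟩ := Ideal.Quotient.mk_surjective b'
  obtain ⟨s₀, rfl⟩ := Ideal.Quotient.mk_surjective s'
  refine ⟨a₀ * b₀ * (s * s₀), n₁ * n₂, Nat.mul_pos hn₁ hn₂, ?_, ?_⟩
  · apply NumberField.RingOfIntegers.ext
    show algebraMap (𝓞 (KK R q)) (KK R q) (phi q (a₀ * b₀ * (s * s₀))) =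
      algebraMap (𝓞 (KK R q)) (KK R q) ((n₁ * n₂) • x)
    have hbK : algebraMap (R ⧸ q.1) (KK R q) b ≠ 0 :=
      (map_ne_zero_iff _ (IsFractionRing.injective (R ⧸ q.1) (KK R q))).mpr hb0
    have hx : algebraMap (R ⧸ q.1) (KK R q) (Ideal.Quotient.mk q.1 a₀) =
        algebraMap (𝓞 (KK R q)) (KK R q) x * algebraMap (R ⧸ q.1) (KK R q) b := by
      rw [← hab]; field_simp
    have h1 : algebraMap (𝓞 (KK R q)) (KK R q) (phi q (a₀ * b₀ * (s * s₀))) =
        psi R q (a₀ * b₀ * (s * s₀)) := rfl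
    rw [h1, psi, RingHom.comp_apply, map_mul, map_mul, map_mul (Ideal.Quotient.mk q.1) s, hss',
      map_mul, map_mul, hx, mul_assoc (algebraMap (𝓞 (KK R q)) (KK R q) x), ← map_mul, hbb',
      map_natCast, map_natCast, map_nsmul, nsmul_eq_mul]
    push_cast
    ring
  · intro q' hq'
    rw [phi_eq_zero_iff]
    exact Ideal.mul_mem_left _ _ (Ideal.mul_mem_right _ _ (hs q' hq'))

/-- The map `R → ∏ 𝓞 (K 𝔮)`. -/
def phiPi : R →+* (∀ q : MinP R, 𝓞 (KK R q)) := RingHom.pi fun q => phi q

@[simp] theorem phiPi_apply (r : R) (q : MinP R) : phiPi r q = phi q r := rfl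

theorem exists_nsmul_mem_range (u : ∀ q : MinP R, 𝓞 (KK R q)) :
    ∃ n : ℕ, 0 < n ∧ n • u ∈ (phiPi (R := R)).toAddMonoidHom.range := by
  classical
  have hsum : u = ∑ q : MinP R, Pi.single q (u q) := (Finset.univ_sum_single u).symm
  rw [hsum]
  refine Finset.sum_induction _
    (fun v : ∀ q : MinP R, 𝓞 (KK R q) =>
      ∃ n : ℕ, 0 < n ∧ n • v ∈ (phiPi (R := R)).toAddMonoidHom.range) ?_ ?_ ?_
  · rintro v w ⟨n, hn, hv⟩ ⟨m, hm, hw⟩
    refine ⟨n * m, Nat.mul_pos hn hm, ?_⟩
    rw [nsmul_add]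
    refine AddSubgroup.add_mem _ ?_ ?_
    · rw [mul_nsmul]
      exact AddSubgroup.nsmul_mem _ hv m
    · rw [mul_comm, mul_nsmul]
      exact AddSubgroup.nsmul_mem _ hw n
  · exact ⟨1, Nat.one_pos, by rw [nsmul_zero]; exact AddSubgroup.zero_mem _⟩
  · intro q _
    obtain ⟨r, n, hn, hr, hr'⟩ := exists_phi_eq_nsmul_single q (u q)
    refine ⟨n, hn, r, ?_⟩
    funext q'
    show phi q' r = (n • (Pi.single q (u q) : ∀ q : MinP R, 𝓞 (KK R q))) q'
    rw [Pi.smul_apply]
    by_cases hq : q' = q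
    · subst hq
      rw [Pi.single_eq_same, hr]
    · rw [Pi.single_eq_of_ne hq, nsmul_zero, hr' q' hq]

variable (R) in
/-- **D1**, bundled form. -/
theorem nonempty_orderData [IsReduced R] : Nonempty (OrderData R) := by
  obtain ⟨c, hc, hcu⟩ := exists_uniform_nsmul_mem (phiPi (R := R)).toAddMonoidHom.range
    exists_nsmul_mem_range
  refine ⟨{
    ι := MinP R
    K := KK R
    φ := fun q => phi q
    c := c
    c_pos := hc
    inj := eq_zero_of_forall_phi_eq_zero
    cond := fun u => ?_ }⟩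
  obtain ⟨r, hr⟩ := hcu u
  refine ⟨r, fun q => ?_⟩
  have := congrFun hr q
  rw [Pi.smul_apply, nsmul_eq_mul] at this
  exact this

end Ring

/-- **D1**, unbundled form: a reduced torsion-free commutative ring, finite over `ℤ`, embeds into
a finite product of rings of integers of number fields, and a positive integer `c` multiplies the
whole product into the image. -/
theorem exists_orderData (R : Type) [CommRing R] [Module.Finite ℤ R] [IsReduced R]
    [IsAddTorsionFree R] :
    ∃ (ι : Type) (_ : Fintype ι) (K : ι → Type) (_ : ∀ i, Field (K i))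
      (_ : ∀ i, NumberField (K i)) (φ : ∀ i, R →+* 𝓞 (K i)) (c : ℕ),
      0 < c ∧ (∀ r : R, (∀ i, φ i r = 0) → r = 0) ∧
      ∀ u : ∀ i, 𝓞 (K i), ∃ r : R, ∀ i, φ i r = (c : 𝓞 (K i)) * u i := by
  obtain ⟨D⟩ := nonempty_orderData R
  exact ⟨D.ι, D.fintype, D.K, D.field, D.numberField, D.φ, D.c, D.c_pos, D.inj, D.cond⟩

namespace OrderData

variable {R : Type} [CommRing R] (D : OrderData R)

/-- The consequence used by D4: if every coordinate of `t` is divisible by `m`, then `c • t` is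
divisible by `m` in `R`. -/
theorem exists_nat_mul_eq (t : R) (m : ℕ)
    (h : ∀ i, (m : 𝓞 (D.K i)) ∣ D.φ i t) : ∃ r : R, (D.c : R) * t = (m : R) * r := by
  choose u hu using h
  obtain ⟨r, hr⟩ := D.cond u
  refine ⟨r, ?_⟩
  have h0 : (D.c : R) * t - (m : R) * r = 0 := by
    apply D.inj
    intro i
    rw [map_sub, map_mul, map_mul, map_natCast, map_natCast, hr i, hu i]
    ring
  exact sub_eq_zero.mp h0

/-- Variant with the `p`-part of the conductor split off: if `c = p ^ a * c'` and every coordinate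
of `t` is divisible by `p ^ (k + a)`, then `c' * t ∈ p ^ k R`. -/
theorem exists_pow_mul_eq [IsAddTorsionFree R] (p a c' : ℕ) (hp : 0 < p)
    (hc : D.c = p ^ a * c') (t : R) (k : ℕ)
    (h : ∀ i, ((p ^ (k + a) : ℕ) : 𝓞 (D.K i)) ∣ D.φ i t) :
    ∃ r : R, (c' : R) * t = (p : R) ^ k * r := by
  obtain ⟨r, hr⟩ := D.exists_nat_mul_eq t (p ^ (k + a)) h
  refine ⟨r, ?_⟩
  have hpa : 0 < p ^ a := Nat.pos_of_ne_zero (pow_ne_zero a hp.ne')
  have key : (p ^ a) • ((c' : R) * t) = (p ^ a) • ((p : R) ^ k * r) := by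
    rw [nsmul_eq_mul, nsmul_eq_mul]
    calc ((p ^ a : ℕ) : R) * ((c' : R) * t) = (D.c : R) * t := by rw [hc]; push_cast; ring
      _ = ((p ^ (k + a) : ℕ) : R) * r := hr
      _ = ((p ^ a : ℕ) : R) * ((p : R) ^ k * r) := by push_cast; ring
  exact nsmul_right_injective hpa.ne' key

end OrderData

end Fermat.Agent.S31.H972
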