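import Fermat.Agent.S31.H934.D4
import Fermat.Agent.S31.H972.D1

/-!
# Row S31, piece D1 (helper972): the interface statement `H934.D1Statement`

`d1Statement R : H934.D1Statement R` for every reduced torsion-free commutative ring `R` finite
over `ℤ` (proof: `H972/D1.lean`), and the resulting
`pts_of_reduced_of_D2_D3 : D2Statement p → D3Statement p → PTS p R`.
-/

set_option autoImplicit false

namespace Fermat.Agent.S31.H972

open NumberField

/-- **D1** in the exact shape of the interface `H934.D1Statement`. -/
theorem d1Statement (R : Type) [CommRing R] [Module.Finite ℤ R] [IsReduced R]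
    [IsAddTorsionFree R] : H934.D1Statement R := by
  obtain ⟨ι, i1, K, i2, i3, φ, c, hc, hinj, hcond⟩ := exists_orderData R
  exact ⟨ι, i1, K, i2, i3, φ, c, hc.ne', hinj, hcond⟩

/-- `PTS p R` from D2 and D3 (D1 discharged). -/
theorem pts_of_reduced_of_D2_D3 (p : ℕ) (hp : p.Prime) (R : Type) [CommRing R]
    [Module.Finite ℤ R] [IsReduced R] [IsAddTorsionFree R]
    (h2 : H934.D2Statement p) (h3 : H934.D3Statement p) : PTS p R :=
  H934.pts_of_parts p hp R (d1Statement R) h2 h3

end Fermat.Agent.S31.H972
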